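/-
T1 (Galois representations from `J₀(N)` via Kummer groups): the shared definition of the Kummer
subgroup `tWsub k N m` of the function field of `X₀(N)` over a coefficient field `k`.
-/
import Mathlib
import Fermat.Prelude.Def_ModularCurve_ArithmeticGalois

set_option autoImplicit false

namespace Fermat.Agent.T1

open ModularCurve AlgebraicCurve

/-- the group of functions `y ≠ 0` in the function field of `X₀(N)` over `k` (inside
`LaurentSeries k`) all of whose orders `ord_P y` are divisible by `m`; modulo `m`-th powers this is
`J₀(N)(k)[m]` for algebraically closed `k`.  For `k = ℚ̄` the field is the Prelude's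
`modularFunctionFieldBar N`. -/
def tWsub (k : Type*) [Field k] [Algebra ℚ k] (N m : ℕ) :
    Subgroup (↥(laurentBaseChange k (modularFunctionFieldFull N)))ˣ where
  carrier := {y | ∀ P : Place k ↥(laurentBaseChange k (modularFunctionFieldFull N)),
    (m : ℤ) ∣ P.ord (y : ↥(laurentBaseChange k (modularFunctionFieldFull N)))}
  one_mem' := fun P => by
    rw [Units.val_one, Place.ord_one]
    exact dvd_zero _
  mul_mem' := fun {a b} ha hb P => by
    rw [Units.val_mul, Place.ord_mul P a.ne_zero b.ne_zero]
    exact dvd_add (ha P) (hb P)
  inv_mem' := fun {a} ha P => by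
    rw [Units.val_inv_eq_inv_val, Place.ord_inv]
    exact (dvd_neg).mpr (ha P)

theorem mem_tWsub {k : Type*} [Field k] [Algebra ℚ k] {N m : ℕ}
    {y : (↥(laurentBaseChange k (modularFunctionFieldFull N)))ˣ} :
    y ∈ tWsub k N m ↔ ∀ P : Place k ↥(laurentBaseChange k (modularFunctionFieldFull N)),
      (m : ℤ) ∣ P.ord (y : ↥(laurentBaseChange k (modularFunctionFieldFull N))) := Iff.rfl

end Fermat.Agent.T1
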